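import Mathlib
import Fermat.Agent.MUL.S24.RHCounts
import Fermat.Agent.MUL.S24.LocalDiff
import Fermat.Agent.MUL.Lib.RR.OfSep
import Fermat.Agent.MUL.Lib.RR.Hurwitz.Main
import Fermat.Agent.MUL.Orig.Lib.GaussInt.Lattice

section MergeWrap_Lib_GenusEq_Bridge -- from Lib/GenusEq/Bridge.lean

set_option autoImplicit false
set_option linter.style.haveILetI false
set_option linter.unusedSectionVars false

/-!
# The genus by Kähler differentials is the adelic genus (characteristic zero)  (helper90)

`K` algebraically closed of characteristic zero, `F / K` a function field in one variable.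

* `hasCanonicalDivisor_of_ff` : divisors of nonzero Kähler differentials exist (finite support);
* `degree_divisor_D` : `deg div(dx) = 2 genusFF - 2`;
* `genus_eq_genusFF` : `AlgebraicCurve.genus K F = genusFF K F`.

Proof: `R := div(dx) + 2 (x)_∞` has `R_v = e_v - 1` at every place
(`S24Diff.ordDifferential_D_of_pos / _of_neg`), so Riemann-Hurwitz for the adelic genus
(`RRHur.hurwitz_upper_tame`, `RRHur.hurwitz_lower`) computes its degree; the finiteness of the
set of ramified places also follows from `hurwitz_lower`.
-/

noncomputable section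

open AlgebraicCurve IntermediateField KaehlerDifferential

namespace Fermat.Agent.GenusEq

open Fermat.Agent.RR Fermat.Agent.RRHur Fermat.Agent.S24Diff

variable {K F : Type*} [Field K] [Field F] [Algebra K F] [IsAlgClosed K] [CharZero K] {x : F}

/-- the order of `dx` at a place. -/
def kap (x : F) (v : Place K F) : ℤ := v.ordDifferential (KaehlerDifferential.D K F x)

theorem kap_of_pos (h : IsFunctionFieldOver K F x) (v : Place K F) (a : K)
    (hpos : 0 < v.ord (x - algebraMap K F a)) :
    kap x v = v.ord (x - algebraMap K F a) - 1 :=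
  ordDifferential_D_of_pos h v x a hpos

theorem kap_of_neg (h : IsFunctionFieldOver K F x) (v : Place K F) (hneg : v.ord x < 0) :
    kap x v = v.ord x - 1 :=
  ordDifferential_D_of_neg h v x hneg

theorem not_mem_range_of_ff (h : IsFunctionFieldOver K F x) :
    x ∉ Set.range (algebraMap K F) := by
  rintro ⟨a, rfl⟩
  exact h.transcendental (isAlgebraic_algebraMap a)

/-- at a place which is not a pole of `x` the order of `dx` is nonnegative. -/
theorem kap_nonneg (h : IsFunctionFieldOver K F x) (v : Place K F) (hv : 0 ≤ v.ord x) :
    0 ≤ kap x v := by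
  rcases Fermat.Agent.S24Res.exists_ord_sub_pos_or_neg h v (not_mem_range_of_ff h) with ⟨a, ha⟩ | hneg
  · rw [kap_of_pos h v a ha]
    omega
  · omega

theorem isSeparable_of_ff_charZero (h : IsFunctionFieldOver K F x) :
    Algebra.IsSeparable K⟮x⟯ F := by
  haveI := h.finite
  haveI : CharZero K⟮x⟯ := charZero_of_injective_algebraMap (algebraMap K K⟮x⟯).injective
  infer_instance

/-- a finite set of ramified places, not poles of `x`, has at most `2 g - 2 + 2 n` elements. -/
theorem card_le_of_ramified (h : IsFunctionFieldOver K F x) (T : Finset (Place K F))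
    (hT : ∀ v ∈ T, 0 ≤ v.ord x ∧ 1 ≤ kap x v) :
    (T.card : ℤ) ≤ 2 * (genusFF K F : ℤ) - 2 + 2 * (Module.finrank K⟮x⟯ F : ℤ) := by
  classical
  have hRR : IsRRField K F := isRRField_of_charZero h
  haveI := h.finite
  haveI := isSeparable_of_ff_charZero h
  set R : Divisor K F := Finsupp.onFinset T (fun v => if v ∈ T then (1 : ℤ) else 0)
    (fun v hv => by
      by_contra hvT
      simp [hvT] at hv) with hR
  have hRv : ∀ v, R v = if v ∈ T then (1 : ℤ) else 0 := fun v => rfl
  have hbound : IsRamBound x R := by
    intro v
    by_cases hvT : v ∈ T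
    · obtain ⟨h0, h1⟩ := hT v hvT
      refine ⟨fun hneg => by omega, fun c hc => ?_⟩
      rw [hRv, if_pos hvT]
      rw [kap_of_pos h v c hc] at h1
      omega
    · refine ⟨fun hneg => ?_, fun c hc => ?_⟩
      · rw [hRv, if_neg hvT]
        omega
      · rw [hRv, if_neg hvT]
        omega
  have hlow := hurwitz_lower hRR h.transcendental R hbound
  have hdeg : Divisor.degree R = T.card := by
    have hsupp : R.support = T := by
      ext v
      rw [Finsupp.mem_support_iff, hRv]
      by_cases hvT : v ∈ T <;> simp [hvT]
    rw [degree_eq_sum hRR, hsupp]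
    rw [Finset.sum_congr rfl (fun v hv => by rw [hRv, if_pos hv])]
    simp
  rw [hdeg] at hlow
  exact hlow

/-- the set of ramified places is finite. -/
theorem finite_ramified (h : IsFunctionFieldOver K F x) :
    {v : Place K F | 0 ≤ v.ord x ∧ 1 ≤ kap x v}.Finite := by
  by_contra hinf
  have hinf' : {v : Place K F | 0 ≤ v.ord x ∧ 1 ≤ kap x v}.Infinite := hinf
  set B : ℤ := 2 * (genusFF K F : ℤ) - 2 + 2 * (Module.finrank K⟮x⟯ F : ℤ) with hB
  obtain ⟨T, hTsub, hTcard⟩ := hinf'.exists_subset_card_eq (B.toNat + 1)
  have := card_le_of_ramified h T (fun v hv => hTsub hv)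
  rw [hTcard] at this
  push_cast at this
  have h2 := Int.self_le_toNat B
  omega

/-- `dx` has finitely many zeros and poles. -/
theorem finite_support_kap (h : IsFunctionFieldOver K F x) :
    (Function.support (kap (K := K) x)).Finite := by
  refine ((Fermat.Agent.S24Fund.finite_poles h h.transcendental).union (finite_ramified h)).subset ?_
  intro v hv
  rw [Function.mem_support] at hv
  by_cases hneg : v.ord x < 0
  · left
    exact hneg
  · right
    have h0 : 0 ≤ v.ord x := not_lt.mp hneg
    have h1 := kap_nonneg h v h0
    exact ⟨h0, by omega⟩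

/-- the divisor of `dx`. -/
def divD (h : IsFunctionFieldOver K F x) : Divisor K F :=
  Finsupp.ofSupportFinite (kap (K := K) x) (finite_support_kap h)

theorem divD_apply (h : IsFunctionFieldOver K F x) (v : Place K F) :
    divD h v = v.ordDifferential (KaehlerDifferential.D K F x) := rfl

/-- the order of `c • dx`. -/
theorem ordDifferential_smul_D (h : IsFunctionFieldOver K F x) (v : Place K F) {c : F}
    (hc : c ≠ 0) :
    v.ordDifferential (c • KaehlerDifferential.D K F x) = v.ord c + kap x v := by
  haveI := dCoordGenerates h v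
  haveI := nontrivial_kaehler h
  apply Place.ordDifferential_smul v hc
  intro h0
  have := v.differentialCoeff_smul_dCoord (KaehlerDifferential.D K F x)
  rw [h0, zero_smul] at this
  exact D_ne_zero h h.transcendental this.symm

/-- divisors of differentials exist. -/
theorem hasCanonicalDivisor_of_ff (h : IsFunctionFieldOver K F x) :
    HasCanonicalDivisor (K := K) (F := F) := by
  have hRR : IsRRField K F := isRRField_of_charZero h
  refine ⟨fun ω hω => ?_⟩
  obtain ⟨c, hc⟩ := exists_smul_D_eq h h.transcendental ω
  have hc0 : c ≠ 0 := by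
    rintro rfl
    exact hω (by rw [← hc, zero_smul])
  refine ⟨divOf hRR c + divD h, fun v => ?_⟩
  rw [Finsupp.add_apply, divOf_apply, divD_apply, ← hc, ordDifferential_smul_D h v hc0]
  rfl

/-- **Riemann-Hurwitz for `dx`**: `deg div(dx) = 2 g - 2`, `g` the adelic genus. -/
theorem degree_divD (h : IsFunctionFieldOver K F x) :
    Divisor.degree (divD h) = 2 * (genusFF K F : ℤ) - 2 := by
  have hRR : IsRRField K F := isRRField_of_charZero h
  haveI := h.finite
  haveI := isSeparable_of_ff_charZero h
  set R : Divisor K F := divD h + 2 • poleDiv hRR x with hR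
  have hRv : ∀ v, R v = kap x v + 2 * max (-(v.ord x)) 0 := by
    intro v
    rw [hR, Finsupp.add_apply, Finsupp.smul_apply, poleDiv_apply, divD_apply, nsmul_eq_mul]
    rfl
  have hpole : ∀ v : Place K F, v.ord x < 0 → R v = -v.ord x - 1 := by
    intro v hneg
    rw [hRv, kap_of_neg h v hneg, max_eq_left (by omega)]
    ring
  have hzero : ∀ (v : Place K F) (c : K), 0 < v.ord (x - algebraMap K F c) →
      R v = v.ord (x - algebraMap K F c) - 1 := by
    intro v c hc
    have hx0 : 0 ≤ v.ord x := by
      by_contra hneg
      rw [not_le] at hneg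
      have hxmem : x ∉ v.toValuationSubring := fun hm =>
        absurd (Fermat.Agent.S24Res.ord_nonneg_of_mem v hm) (not_le.mpr hneg)
      have hsub : x - algebraMap K F c ∈ v.toValuationSubring :=
        Fermat.Agent.S24Res.mem_of_ord_nonneg v hc.le
      apply hxmem
      have : x = (x - algebraMap K F c) + algebraMap K F c := by ring
      rw [this]
      exact v.toValuationSubring.add_mem _ _ hsub (v.algebraMap_mem' c)
    rw [hRv, kap_of_pos h v c hc, max_eq_right (by omega)]
    ring
  have htame : IsTameRamDiv x R := by
    intro v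
    refine ⟨fun hneg => ⟨by rw [hpole v hneg], ?_⟩, fun c hc => ⟨by rw [hzero v c hc], ?_⟩⟩
    · have : (-v.ord x).toNat ≠ 0 := by omega
      exact_mod_cast this
    · have : (v.ord (x - algebraMap K F c)).toNat ≠ 0 := by omega
      exact_mod_cast this
  have hbound : IsRamBound x R := by
    intro v
    exact ⟨fun hneg => by rw [hpole v hneg], fun c hc => by rw [hzero v c hc]⟩
  have hup := hurwitz_upper_tame hRR h.transcendental R htame
  have hlow := hurwitz_lower hRR h.transcendental R hbound
  have hdeg : Divisor.degree R =
      Divisor.degree (divD h) + 2 * (Module.finrank K⟮x⟯ F : ℤ) := by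
    rw [hR, map_add, map_nsmul, degree_poleDiv_eq_finrank hRR h.transcendental, nsmul_eq_mul]
    rfl
  rw [hdeg] at hup hlow
  omega

/-- the degree of the divisor of any nonzero differential is `2 g - 2`. -/
theorem degree_canonical (h : IsFunctionFieldOver K F x) {ω : Ω[F⁄K]} (hω : ω ≠ 0)
    (D : Divisor K F) (hD : ∀ v : Place K F, D v = v.ordDifferential ω) :
    Divisor.degree D = 2 * (genusFF K F : ℤ) - 2 := by
  have hRR : IsRRField K F := isRRField_of_charZero h
  obtain ⟨c, hc⟩ := exists_smul_D_eq h h.transcendental ω
  have hc0 : c ≠ 0 := by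
    rintro rfl
    exact hω (by rw [← hc, zero_smul])
  have hDeq : D = divOf hRR c + divD h := by
    ext v
    rw [hD v, Finsupp.add_apply, divOf_apply, divD_apply, ← hc,
      ordDifferential_smul_D h v hc0]
    rfl
  rw [hDeq, map_add, degree_divOf, zero_add, degree_divD h]

/-- **the genus by Kähler differentials is the adelic genus.** -/
theorem genus_eq_genusFF (h : IsFunctionFieldOver K F x)
    [HasCanonicalDivisor (K := K) (F := F)] :
    AlgebraicCurve.genus K F = genusFF K F := by
  haveI := nontrivial_kaehler h
  have hex : ∃ ω : Ω[F⁄K], ω ≠ 0 := exists_ne 0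
  unfold AlgebraicCurve.genus
  rw [dif_pos hex]
  have hdeg := degree_canonical h hex.choose_spec (canonicalDivisorOf hex.choose_spec)
    (fun v => canonicalDivisorOf_apply hex.choose_spec v)
  rw [hdeg]
  have : (2 * (genusFF K F : ℤ) - 2 + 2).toNat = 2 * genusFF K F := by omega
  rw [this]
  omega

end Fermat.Agent.GenusEq
end
end MergeWrap_Lib_GenusEq_Bridge
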