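import Mathlib
import Fermat.Prelude.Def_ModularCurve_GenusNumerics
import Fermat.Agent.MUL.Lib.GenusEq.Bridge
import Fermat.Agent.MUL.S24.Assembly
import Fermat.Agent.MUL.Lib.RR.OfModularCFinal

section MergeWrap_F3_Genus_GenusM -- from F3/Genus/GenusM.lean

/-!
# Genus numerics at levels `M = 4N`, `9N` (helper90; piece (6e) of the chain B → A)

For `4 ∣ M` or `3 ∣ M` there are no elliptic points of order two (`nuTwo M = 0`), for `2 ∣ M` or
`9 ∣ M` none of order three (`nuThree M = 0`).  Hence for `M = 4 N` and `M = 9 N`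
`genusFormula M = 1 + ψ(M) / 12 - C(M) / 2`.
-/

set_option autoImplicit false

namespace Fermat.Agent.F3Genus

open ModularCurve

/-- A polynomial equation without solutions modulo `d` has no solutions modulo a multiple of `d`
(for the equation `x ^ 2 + 1 = 0`). -/
theorem nuTwo_eq_zero_of_dvd {d M : ℕ} (hdM : d ∣ M)
    (hd : ∀ x : ZMod d, x ^ 2 + 1 ≠ 0) : nuTwo M = 0 := by
  unfold nuTwo
  have : IsEmpty {x : ZMod M // x ^ 2 + 1 = 0} := by
    refine ⟨fun ⟨x, hx⟩ => hd (ZMod.castHom hdM (ZMod d) x) ?_⟩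
    have := congrArg (ZMod.castHom hdM (ZMod d)) hx
    rwa [map_add, map_pow, map_one, map_zero] at this
  exact Nat.card_of_isEmpty

theorem nuThree_eq_zero_of_dvd {d M : ℕ} (hdM : d ∣ M)
    (hd : ∀ x : ZMod d, x ^ 2 + x + 1 ≠ 0) : nuThree M = 0 := by
  unfold nuThree
  have : IsEmpty {x : ZMod M // x ^ 2 + x + 1 = 0} := by
    refine ⟨fun ⟨x, hx⟩ => hd (ZMod.castHom hdM (ZMod d) x) ?_⟩
    have := congrArg (ZMod.castHom hdM (ZMod d)) hx
    rwa [map_add, map_add, map_pow, map_one, map_zero] at this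
  exact Nat.card_of_isEmpty

theorem nuTwo_eq_zero_of_four_dvd {M : ℕ} (h : 4 ∣ M) : nuTwo M = 0 :=
  nuTwo_eq_zero_of_dvd h (by decide)

theorem nuTwo_eq_zero_of_three_dvd {M : ℕ} (h : 3 ∣ M) : nuTwo M = 0 :=
  nuTwo_eq_zero_of_dvd h (by decide)

theorem nuThree_eq_zero_of_two_dvd {M : ℕ} (h : 2 ∣ M) : nuThree M = 0 :=
  nuThree_eq_zero_of_dvd h (by decide)

theorem nuThree_eq_zero_of_nine_dvd {M : ℕ} (h : 9 ∣ M) : nuThree M = 0 :=
  nuThree_eq_zero_of_dvd h (by decide)

/-- The genus formula at a level divisible by `4`. -/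
theorem genusFormula_of_four_dvd {M : ℕ} (h : 4 ∣ M) :
    genusFormula M = 1 + (dedekindPsi M : ℚ) / 12 - (cuspCount M : ℚ) / 2 := by
  unfold genusFormula
  rw [nuTwo_eq_zero_of_four_dvd h, nuThree_eq_zero_of_two_dvd (Dvd.dvd.trans ⟨2, rfl⟩ h)]
  simp

/-- The genus formula at a level divisible by `9`. -/
theorem genusFormula_of_nine_dvd {M : ℕ} (h : 9 ∣ M) :
    genusFormula M = 1 + (dedekindPsi M : ℚ) / 12 - (cuspCount M : ℚ) / 2 := by
  unfold genusFormula
  rw [nuTwo_eq_zero_of_three_dvd (Dvd.dvd.trans ⟨3, rfl⟩ h), nuThree_eq_zero_of_nine_dvd h]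
  simp

/-- The genus formula at `M = 4 N`. -/
theorem genusFormula_four_mul (N : ℕ) :
    genusFormula (4 * N) = 1 + (dedekindPsi (4 * N) : ℚ) / 12 - (cuspCount (4 * N) : ℚ) / 2 :=
  genusFormula_of_four_dvd ⟨N, rfl⟩

/-- The genus formula at `M = 9 N`. -/
theorem genusFormula_nine_mul (N : ℕ) :
    genusFormula (9 * N) = 1 + (dedekindPsi (9 * N) : ℚ) / 12 - (cuspCount (9 * N) : ℚ) / 2 :=
  genusFormula_of_nine_dvd ⟨N, rfl⟩

end Fermat.Agent.F3Genus
end MergeWrap_F3_Genus_GenusM

section MergeWrap_Lib_GenusEq_GenusFM -- from Lib/GenusEq/GenusFM.lean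

set_option autoImplicit false
set_option linter.style.haveILetI false
set_option linter.unusedSectionVars false

/-!
# The adelic genus of the function field of `X₀(N)` over `ℚ̄`  (helper90)

`genusFF ℚ̄ F_N = genusFormula N` for every level, and `= 1 + ψ(M)/12 - C(M)/2` for the
auxiliary levels `M = 4 N`, `9 N` (piece (6e) of the chain B → A).
-/

noncomputable section

open AlgebraicCurve ModularCurve

namespace Fermat.Agent.GenusEq

/-- the function field of `X₀(N)` over `ℚ̄` satisfies the standing hypotheses of the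
Riemann-Roch library. -/
theorem isRRField_modularFunctionFieldBar (N : ℕ) [NeZero N] :
    Fermat.Agent.RR.IsRRField (AlgebraicClosure ℚ) ↥(ModularCurve.modularFunctionFieldBar N) :=
  Fermat.Agent.RR.isRRField_of_charZero (Fermat.Agent.S24.isFunctionFieldOver_jBar N)

/-- divisors of differentials exist on the function field of `X₀(N)` over `ℚ̄`. -/
theorem hasCanonicalDivisor_modularFunctionFieldBar (N : ℕ) [NeZero N] :
    AlgebraicCurve.HasCanonicalDivisor (K := AlgebraicClosure ℚ)
      (F := ↥(ModularCurve.modularFunctionFieldBar N)) :=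
  hasCanonicalDivisor_of_ff (Fermat.Agent.S24.isFunctionFieldOver_jBar N)

/-- **the adelic genus of `X₀(N)`** is given by the classical genus formula. -/
theorem genusFF_modularFunctionFieldBar (N : ℕ) [NeZero N] :
    (genusFF (AlgebraicClosure ℚ) ↥(ModularCurve.modularFunctionFieldBar N) : ℚ) =
      ModularCurve.genusFormula N := by
  haveI := hasCanonicalDivisor_modularFunctionFieldBar N
  rw [← genus_eq_genusFF (Fermat.Agent.S24.isFunctionFieldOver_jBar N)]
  exact Fermat.Agent.S24.genus_modularFunctionFieldBar N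

/-- the adelic genus at a level divisible by `4`. -/
theorem genusFF_modularFunctionFieldBar_of_four_dvd (M : ℕ) [NeZero M] (h : 4 ∣ M) :
    (genusFF (AlgebraicClosure ℚ) ↥(ModularCurve.modularFunctionFieldBar M) : ℚ) =
      1 + (dedekindPsi M : ℚ) / 12 - (cuspCount M : ℚ) / 2 := by
  rw [genusFF_modularFunctionFieldBar, Fermat.Agent.F3Genus.genusFormula_of_four_dvd h]

/-- the adelic genus at a level divisible by `9`. -/
theorem genusFF_modularFunctionFieldBar_of_nine_dvd (M : ℕ) [NeZero M] (h : 9 ∣ M) :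
    (genusFF (AlgebraicClosure ℚ) ↥(ModularCurve.modularFunctionFieldBar M) : ℚ) =
      1 + (dedekindPsi M : ℚ) / 12 - (cuspCount M : ℚ) / 2 := by
  rw [genusFF_modularFunctionFieldBar, Fermat.Agent.F3Genus.genusFormula_of_nine_dvd h]

/-- integer form: `12 g + 6 C = 12 + ψ` at a level divisible by `4` or `9`. -/
theorem twelve_genusFF_add (M : ℕ) [NeZero M] (h : 4 ∣ M ∨ 9 ∣ M) :
    12 * genusFF (AlgebraicClosure ℚ) ↥(ModularCurve.modularFunctionFieldBar M) +
      6 * cuspCount M = 12 + dedekindPsi M := by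
  have hq : (genusFF (AlgebraicClosure ℚ) ↥(ModularCurve.modularFunctionFieldBar M) : ℚ) =
      1 + (dedekindPsi M : ℚ) / 12 - (cuspCount M : ℚ) / 2 := by
    rcases h with h | h
    · exact genusFF_modularFunctionFieldBar_of_four_dvd M h
    · exact genusFF_modularFunctionFieldBar_of_nine_dvd M h
  have : (12 * genusFF (AlgebraicClosure ℚ) ↥(ModularCurve.modularFunctionFieldBar M) +
      6 * cuspCount M : ℚ) = 12 + dedekindPsi M := by
    rw [hq]
    ring
  exact_mod_cast this

end Fermat.Agent.GenusEq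
end
end MergeWrap_Lib_GenusEq_GenusFM
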