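import Mathlib
import Fermat.Prelude.Def_ModularCurve_GenusNumerics
import Fermat.Prelude.Def_ModularCurve_ArithmeticGalois
import Fermat.Prelude.Def_FLTPrelim_Ramification
import Fermat.Agent.MUL.Lib.RR.OfModularCFinal
import Fermat.Agent.MUL.Lib.RR.Hurwitz.Fibres
import Fermat.Agent.MUL.S24.EmbF
import Fermat.Agent.MUL.F3.I2.Dict1

section MergeWrap_Lib_GenusEq_Props -- from Lib/GenusEq/Props.lean

set_option autoImplicit false

/-!
# Genus equality at the auxiliary levels `M = 4 N`, `9 N`: the work packages as `Prop`s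

Sub-architect: helper93.  Blueprint: `NOTES/blueprint-GenusEq.md`.  Namespace `Fermat.Agent.GenusEq`.
ONLY definitions here (no theorem with a hole).  Provers end their file with
`theorem ... : <Prop defined here>`; the assembly (`Lib/GenusEq/Assembly.lean`) takes the `Prop`s
as hypotheses.

Notation: `K = ℚ̄`, `F_M = modularFunctionFieldBar M`, `j = S24.jBar M`;
`k` = residue field of a valuation ring `A` of `ℚ̄` over `ℓ ∤ M`,
`F_{M,k} = modularFunctionFieldFullC k M`, `j̄ = RRMod.jC k M`.
-/

noncomputable section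

open AlgebraicCurve IntermediateField ModularCurve

namespace Fermat.Agent.GenusEq

/-- number of poles of `y` (number of places over `y = ∞`). -/
def poleCount (K F : Type*) [Field K] [Field F] [Algebra K F] (y : F) : ℕ :=
  Nat.card {v : Place K F // v.ord y < 0}

/-- number of zeros of `y` (number of places over `y = 0`). -/
def zeroCount (K F : Type*) [Field K] [Field F] [Algebra K F] (y : F) : ℕ :=
  Nat.card {v : Place K F // 0 < v.ord y}

/-- (A1) characteristic `0`: the places of `F_M` over `j = ∞` are the cusps of `Γ₀(M)`.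
(From `S24`: `card_zeroPlaces` for `t = j⁻¹`, `g = T`, and `orbCount_T`.) -/
def CuspCountBar (M : ℕ) [NeZero M] : Prop :=
  poleCount (AlgebraicClosure ℚ) ↥(modularFunctionFieldBar M) (Fermat.Agent.S24.jBar M)
    = cuspCount M

/-- (A2) characteristic `0`: `j` is unramified outside `0, 1728, ∞`, and `[F_M : K(j)] = ψ(M)`.
(From `S24`: `card_zeroPlaces` for `t = j - c`, local datum with `s c = 1`.) -/
def UnramBar (M : ℕ) [NeZero M] : Prop :=
  Module.finrank (AlgebraicClosure ℚ)⟮Fermat.Agent.S24.jBar M⟯ ↥(modularFunctionFieldBar M)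
      = dedekindPsi M ∧
  ∀ c : AlgebraicClosure ℚ, c ≠ 0 → c ≠ 1728 →
    zeroCount (AlgebraicClosure ℚ) ↥(modularFunctionFieldBar M)
      (Fermat.Agent.S24.jBar M - algebraMap (AlgebraicClosure ℚ) _ c) = dedekindPsi M

/-- (6c) characteristic `ℓ ∤ M` (INCLUDING `ℓ = 2, 3`): the number of places of `F_{M,k}` over
`j̄ = ∞` is the number of cusps of `Γ₀(M)`.
(From GoodRed: discriminant chain for the chart `x = j⁻¹`, branch set `{0}` resp. `{0, 1/1728}`.) -/
def CuspCountModL (M : ℕ) [NeZero M] : Prop :=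
  ∀ (ℓ : ℕ), ℓ.Prime → ¬ ℓ ∣ M →
    ∀ A : ValuationSubring (AlgebraicClosure ℚ), A.LiesOverPrime ℓ →
      poleCount (IsLocalRing.ResidueField A)
        ↥(modularFunctionFieldFullC (IsLocalRing.ResidueField A) M)
        (Fermat.Agent.RRMod.jC (IsLocalRing.ResidueField A) M) = cuspCount M

/-- (6a) degree in characteristic `ℓ ∤ M`: `[F_{M,k} : k(j̄)] = ψ(M)`. -/
def DegreeModL (M : ℕ) [NeZero M] : Prop :=
  ∀ (ℓ : ℕ), ℓ.Prime → ¬ ℓ ∣ M →
    ∀ A : ValuationSubring (AlgebraicClosure ℚ), A.LiesOverPrime ℓ →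
      Module.finrank (IsLocalRing.ResidueField A)⟮Fermat.Agent.RRMod.jC (IsLocalRing.ResidueField A) M⟯
        ↥(modularFunctionFieldFullC (IsLocalRing.ResidueField A) M) = dedekindPsi M

/-- (6d) a function field of genus `0` over an algebraically closed field is rational, with a
generator having a simple pole at a prescribed place and no other pole.
(Riemann: `ℓ(P) ≥ 2`; `[F : k(x)] = deg (x)_∞ = 1`, `RRHur.degree_poleDiv_eq_finrank`.) -/
def RationalOfGenusZero : Prop :=
  ∀ (k F : Type) [Field k] [Field F] [Algebra k F] [IsAlgClosed k],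
    Fermat.Agent.RR.IsRRField k F → genusFF k F = 0 → ∀ P : Place k F,
      ∃ x : F, Transcendental k x ∧ P.ord x = -1 ∧ (∀ Q : Place k F, Q ≠ P → 0 ≤ Q.ord x) ∧
        IntermediateField.adjoin k {x} = ⊤

/-- (P4) POLES THROUGH FIBRES.  `B = k(x)` rational, `y ∈ B` with a pole at the pole of `x`,
`ι : B → F` a finite extension.  Then the poles of `y` in `B` are the pole of `x` and the zeros of
`x - c`, `c ∈ S`, for a finite set `S` of values, and the poles of `ι y` in `F` are exactly the
places of `F` over these: the poles of `ι x` and the zeros of `ι x - c`, `c ∈ S`. -/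
def PoleCountFibres : Prop :=
  ∀ (k B F : Type) [Field k] [Field B] [Field F] [Algebra k B] [Algebra k F] [IsAlgClosed k],
    Fermat.Agent.RR.IsRRField k B → Fermat.Agent.RR.IsRRField k F →
    ∀ (ι : B →ₐ[k] F) (x y : B), Transcendental k x → IntermediateField.adjoin k {x} = ⊤ →
      (∀ P : Place k B, P.ord x < 0 → P.ord y < 0) →
      FiniteDimensional k⟮ι x⟯ F →
      ∃ S : Finset k, S.card + 1 = poleCount k B y ∧
        ∑ c ∈ S, zeroCount k F (ι x - algebraMap k F c) + poleCount k F (ι x)
          = poleCount k F (ι y)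

/-- the GOAL at level `M` (`M = 4 N` or `9 N`): genus equality for every prime `ℓ ∤ M`
(the lower bound `g(F_M) ≤ g(F_{M,k})`; the upper bound is Deuring's inequality). -/
def GenusGe (M : ℕ) [NeZero M] : Prop :=
  ∀ (ℓ : ℕ), ℓ.Prime → ¬ ℓ ∣ M →
    ∀ A : ValuationSubring (AlgebraicClosure ℚ), A.LiesOverPrime ℓ →
      genusFF (AlgebraicClosure ℚ) ↥(modularFunctionFieldBar M) ≤
        genusFF (IsLocalRing.ResidueField A)
          ↥(modularFunctionFieldFullC (IsLocalRing.ResidueField A) M)

/-- Deuring's inequality at level `M` (from `Deuring.genusFF_le` and the Gauss `ValSetup`). -/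
def GenusLe (M : ℕ) [NeZero M] : Prop :=
  ∀ (ℓ : ℕ), ℓ.Prime → ¬ ℓ ∣ M →
    ∀ A : ValuationSubring (AlgebraicClosure ℚ), A.LiesOverPrime ℓ →
      genusFF (IsLocalRing.ResidueField A)
          ↥(modularFunctionFieldFullC (IsLocalRing.ResidueField A) M) ≤
        genusFF (AlgebraicClosure ℚ) ↥(modularFunctionFieldBar M)

end Fermat.Agent.GenusEq
end
end MergeWrap_Lib_GenusEq_Props
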